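import Mathlib
import Fermat.Prelude.Def_FLTPrelim_Modularity
import Fermat.Prelude.Def_CuspForm_IntegralStructure

/-!
# P11 (S16): basic definitions

* `eisCoeff p n = σ'(n)`: the sum of the divisors of `n` prime to `p` (the `n`-th coefficient of
  the weight-2 Eisenstein series of level `p`; `0` for `n = 0`);
* `EisCong p M f`: the cusp form `f` on `Γ₀(p)` has integral `q`-expansion, congruent to
  `∑ σ'(n) q^n` modulo `M`.
-/

set_option autoImplicit false

namespace Fermat.Agent.Eis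

open ModularFormClass

/-- `σ'(n)`: the sum of the divisors of `n` prime to `p` (`0` for `n = 0`). -/
def eisCoeff (p n : ℕ) : ℤ := ∑ d ∈ n.divisors with ¬ p ∣ d, (d : ℤ)

@[simp] theorem eisCoeff_zero (p : ℕ) : eisCoeff p 0 = 0 := by simp [eisCoeff]

theorem eisCoeff_one {p : ℕ} (hp : 2 ≤ p) : eisCoeff p 1 = 1 := by
  have h : ¬ p ∣ 1 := by
    intro h
    have := Nat.le_of_dvd one_pos h
    omega
  simp [eisCoeff, Finset.filter_singleton, h]

/-- the cusp form `f` has integral `q`-expansion congruent to `∑ σ'(n) q^n` modulo `M` -/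
def EisCong (p M : ℕ) (f : CuspForm (CongruenceSubgroup.Gamma0 p) 2) : Prop :=
  ∀ n : ℕ, ∃ m : ℤ, qCoeff ⇑f n = (m : ℂ) ∧ (M : ℤ) ∣ m - eisCoeff p n

theorem EisCong.mono {p M M' : ℕ} {f : CuspForm (CongruenceSubgroup.Gamma0 p) 2}
    (h : EisCong p M f) (hM : M' ∣ M) : EisCong p M' f := fun n => by
  obtain ⟨m, hm, hd⟩ := h n
  exact ⟨m, hm, dvd_trans (Int.natCast_dvd_natCast.mpr hM) hd⟩

end Fermat.Agent.Eis
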