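import Mathlib

/-!
# P11 (S16): the formal operators `U_p`, `V_p` on power series

`psU p F = ∑ a_{pn} X^n`, `psV p F = ∑ a_n X^{pn}` for `F = ∑ a_n X^n`, over any commutative
semiring.  `psV p` is a ring homomorphism (for `p ≠ 0`), `psU p` is linear, and
`psU p (psV p F * G) = F * psU p G`.
-/

set_option autoImplicit false

namespace Fermat.Agent.Eis

open PowerSeries

variable {R : Type*} [CommSemiring R]

/-- formal `U_p`: `∑ a_n X^n ↦ ∑ a_{np} X^n` -/
noncomputable def psU (p : ℕ) (F : PowerSeries R) : PowerSeries R :=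
  PowerSeries.mk fun n => coeff (n * p) F

/-- formal `V_p`: `∑ a_n X^n ↦ ∑ a_n X^{np}` -/
noncomputable def psV (p : ℕ) (F : PowerSeries R) : PowerSeries R :=
  PowerSeries.mk fun n => if p ∣ n then coeff (n / p) F else 0

@[simp] theorem coeff_psU (p n : ℕ) (F : PowerSeries R) : coeff n (psU p F) = coeff (n * p) F :=
  coeff_mk _ _

theorem coeff_psV (p n : ℕ) (F : PowerSeries R) :
    coeff n (psV p F) = if p ∣ n then coeff (n / p) F else 0 :=
  coeff_mk _ _

theorem coeff_psV_mul {p : ℕ} (hp : p ≠ 0) (n : ℕ) (F : PowerSeries R) :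
    coeff (n * p) (psV p F) = coeff n F := by
  rw [coeff_psV, if_pos (Dvd.intro_left n rfl), Nat.mul_div_cancel _ (Nat.pos_of_ne_zero hp)]

theorem coeff_psV_of_not_dvd {p n : ℕ} (h : ¬ p ∣ n) (F : PowerSeries R) :
    coeff n (psV p F) = 0 := by
  rw [coeff_psV, if_neg h]

@[simp] theorem psU_add (p : ℕ) (F G : PowerSeries R) : psU p (F + G) = psU p F + psU p G := by
  ext n; simp

@[simp] theorem psU_zero (p : ℕ) : psU p (0 : PowerSeries R) = 0 := by
  ext n; simp

@[simp] theorem psU_smul (p : ℕ) (c : R) (F : PowerSeries R) : psU p (c • F) = c • psU p F := by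
  ext n; simp

@[simp] theorem psV_add (p : ℕ) (F G : PowerSeries R) : psV p (F + G) = psV p F + psV p G := by
  ext n
  simp only [coeff_psV, map_add]
  split_ifs <;> simp

@[simp] theorem psV_zero (p : ℕ) : psV p (0 : PowerSeries R) = 0 := by
  ext n; simp [coeff_psV]

@[simp] theorem psV_smul (p : ℕ) (c : R) (F : PowerSeries R) : psV p (c • F) = c • psV p F := by
  ext n
  simp only [coeff_psV, coeff_smul]
  split_ifs <;> simp

theorem psU_psV {p : ℕ} (hp : p ≠ 0) (F : PowerSeries R) : psU p (psV p F) = F := by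
  ext n
  rw [coeff_psU, coeff_psV_mul hp]

theorem psV_one {p : ℕ} (hp : p ≠ 0) : psV p (1 : PowerSeries R) = 1 := by
  ext n
  rw [coeff_psV, coeff_one, coeff_one]
  by_cases hn : n = 0
  · subst hn; simp
  · rw [if_neg hn]
    split_ifs with h1 h2
    · exfalso
      obtain ⟨k, rfl⟩ := h1
      rw [Nat.mul_div_cancel_left _ (Nat.pos_of_ne_zero hp)] at h2
      subst h2; simp at hn
    · rfl
    · rfl

/-- `V_p` is multiplicative -/
theorem psV_mul {p : ℕ} (hp : p ≠ 0) (F G : PowerSeries R) :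
    psV p (F * G) = psV p F * psV p G := by
  ext n
  rw [coeff_psV, coeff_mul]
  by_cases hn : p ∣ n
  · obtain ⟨m, rfl⟩ := hn
    rw [if_pos (Dvd.intro m rfl), Nat.mul_div_cancel_left _ (Nat.pos_of_ne_zero hp), coeff_mul]
    -- the antidiagonal of `p * m` restricted to multiples of `p`
    symm
    rw [← Finset.sum_filter_add_sum_filter_not (Finset.HasAntidiagonal.antidiagonal (p * m))
      (fun x : ℕ × ℕ => p ∣ x.1)]
    have h2 : ∑ x ∈ (Finset.HasAntidiagonal.antidiagonal (p * m)).filter (fun x : ℕ × ℕ => ¬ p ∣ x.1),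
        coeff x.1 (psV p F) * coeff x.2 (psV p G) = 0 := by
      refine Finset.sum_eq_zero fun x hx => ?_
      rw [Finset.mem_filter] at hx
      rw [coeff_psV_of_not_dvd hx.2, zero_mul]
    rw [h2, add_zero]
    refine (Finset.sum_bij (fun (x : ℕ × ℕ) _ => (p * x.1, p * x.2)) ?_ ?_ ?_ ?_).symm
    · intro x hx
      rw [Finset.HasAntidiagonal.mem_antidiagonal] at hx
      rw [Finset.mem_filter, Finset.HasAntidiagonal.mem_antidiagonal]
      exact ⟨by rw [← hx]; ring, Dvd.intro _ rfl⟩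
    · intro x _ y _ hxy
      have h1 := (Prod.mk.inj hxy).1
      have h2 := (Prod.mk.inj hxy).2
      exact Prod.ext (Nat.eq_of_mul_eq_mul_left (Nat.pos_of_ne_zero hp) h1)
        (Nat.eq_of_mul_eq_mul_left (Nat.pos_of_ne_zero hp) h2)
    · intro y hy
      rw [Finset.mem_filter, Finset.HasAntidiagonal.mem_antidiagonal] at hy
      obtain ⟨k, hk⟩ := hy.2
      have h3 : p ∣ y.2 := by
        have : p ∣ y.1 + y.2 := by rw [hy.1]; exact Dvd.intro _ rfl
        exact (Nat.dvd_add_right hy.2).mp this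
      obtain ⟨k', hk'⟩ := h3
      refine ⟨(k, k'), ?_, ?_⟩
      · rw [Finset.HasAntidiagonal.mem_antidiagonal]
        have : p * (k + k') = p * m := by rw [mul_add, ← hk, ← hk', hy.1]
        exact Nat.eq_of_mul_eq_mul_left (Nat.pos_of_ne_zero hp) this
      · exact Prod.ext hk.symm hk'.symm
    · intro x _
      rw [mul_comm p x.1, mul_comm p x.2, coeff_psV_mul hp, coeff_psV_mul hp]
  · rw [if_neg hn, coeff_mul]
    symm
    refine Finset.sum_eq_zero fun x hx => ?_
    rw [Finset.HasAntidiagonal.mem_antidiagonal] at hx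
    by_cases h1 : p ∣ x.1
    · have h2 : ¬ p ∣ x.2 := fun h2 => hn (hx ▸ Nat.dvd_add h1 h2)
      rw [coeff_psV_of_not_dvd h2, mul_zero]
    · rw [coeff_psV_of_not_dvd h1, zero_mul]

/-- `U_p (V_p F · G) = F · U_p G` -/
theorem psU_psV_mul {p : ℕ} (hp : p ≠ 0) (F G : PowerSeries R) :
    psU p (psV p F * G) = F * psU p G := by
  ext n
  rw [coeff_psU, coeff_mul, coeff_mul]
  rw [← Finset.sum_filter_add_sum_filter_not (Finset.HasAntidiagonal.antidiagonal (n * p))
    (fun x : ℕ × ℕ => p ∣ x.1)]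
  have h2 : ∑ x ∈ (Finset.HasAntidiagonal.antidiagonal (n * p)).filter (fun x : ℕ × ℕ => ¬ p ∣ x.1),
      coeff x.1 (psV p F) * coeff x.2 G = 0 := by
    refine Finset.sum_eq_zero fun x hx => ?_
    rw [Finset.mem_filter] at hx
    rw [coeff_psV_of_not_dvd hx.2, zero_mul]
  rw [h2, add_zero]
  refine (Finset.sum_bij (fun (x : ℕ × ℕ) _ => (x.1 * p, x.2 * p)) ?_ ?_ ?_ ?_).symm
  · intro x hx
    rw [Finset.HasAntidiagonal.mem_antidiagonal] at hx
    rw [Finset.mem_filter, Finset.HasAntidiagonal.mem_antidiagonal]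
    exact ⟨by rw [← hx]; ring, Dvd.intro_left _ rfl⟩
  · intro x _ y _ hxy
    have h1 := (Prod.mk.inj hxy).1
    have h2 := (Prod.mk.inj hxy).2
    exact Prod.ext (Nat.eq_of_mul_eq_mul_right (Nat.pos_of_ne_zero hp) h1)
      (Nat.eq_of_mul_eq_mul_right (Nat.pos_of_ne_zero hp) h2)
  · intro y hy
    rw [Finset.mem_filter, Finset.HasAntidiagonal.mem_antidiagonal] at hy
    obtain ⟨k, hk⟩ := hy.2
    have h3 : p ∣ y.2 := by
      have : p ∣ y.1 + y.2 := by rw [hy.1]; exact Dvd.intro_left _ rfl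
      exact (Nat.dvd_add_right hy.2).mp this
    obtain ⟨k', hk'⟩ := h3
    refine ⟨(k, k'), ?_, ?_⟩
    · rw [Finset.HasAntidiagonal.mem_antidiagonal]
      have : (k + k') * p = n * p := by rw [← hy.1, hk, hk']; ring
      exact Nat.eq_of_mul_eq_mul_right (Nat.pos_of_ne_zero hp) this
    · exact Prod.ext (by simp only [hk, mul_comm]) (by simp only [hk', mul_comm])
  · intro x _
    rw [coeff_psV_mul hp, coeff_psU]

end Fermat.Agent.Eis
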