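import Fermat.Agent.Lib.Eis.Congruence
import Fermat.Agent.Lib.Eis.Theta.Lower
import Fermat.Agent.Lib.Eis.Upper.Glue
import Fermat.Agent.Lib.Eis.ResTest.ResidueTest
import Fermat.Agent.Lib.Eis.Geom.NotEisCongTwo

/-!
# P11 (S16): final assembly

`natCard_eisenstein_quotient_of_genus_le`: the order of the Eisenstein quotient `𝕋/I` of level `p`
is the numerator of `(p - 1)/12`, given the genus bound (II) `12 g(F') ≤ p + 1` for the reduction
`F' = k(j̄, j̄_p)` of `X₀(p)` in characteristic `2` (only used for `p ≡ 23 mod 24`).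

Ingredients: (A) `natCard_quotient_eq_of_eisCong`, (B) `exists_eisCong_eisensteinNumerator`,
(C) `eisCong_primePow_dvd_or`, (R) `not_eisCong_two_of_mod_eq_seven`,
(D5) `eh_not_eisCong_two_of_genus_le`.
-/

set_option autoImplicit false

open ModularCurve CuspForm

namespace Fermat.Agent.Eis

/-- the prime power reduction: every modulus of an Eisenstein congruence divides the numerator of
`(p - 1)/12`, given that there is no congruence modulo `2` for `p ≡ 23 mod 24`. -/
theorem eisCong_dvd_eisensteinNumerator (p : ℕ) [hpF : Fact p.Prime]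
    (hD : p % 24 = 23 → ∀ f : CuspForm (CongruenceSubgroup.Gamma0 p) 2, ¬ EisCong p 2 f)
    {M : ℕ} {f : CuspForm (CongruenceSubgroup.Gamma0 p) 2} (hf : EisCong p M f) :
    M ∣ eisensteinNumerator p := by
  rw [Nat.dvd_iff_prime_pow_dvd_dvd]
  intro l s hl hls
  rcases eisCong_primePow_dvd_or p hl (hf.mono hls) with h | ⟨rfl, hp8, rfl⟩
  · exact h
  · exfalso
    have h2 : EisCong p 2 f := hf.mono (by simpa using hls)
    have hp := hpF.out
    have h3 : p % 3 ≠ 0 := by
      intro h3
      have : 3 ∣ p := Nat.dvd_of_mod_eq_zero h3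
      rcases (Nat.dvd_prime hp).mp this with h | h <;> omega
    have h24 : p % 24 = 7 ∨ p % 24 = 23 := by omega
    rcases h24 with h24 | h24
    · exact not_eisCong_two_of_mod_eq_seven p h24 f h2
    · exact hD h24 f h2

/-- **S16**, given the genus bound (II) in characteristic `2` -/
theorem natCard_eisenstein_quotient_of_genus_le (p : ℕ) [hpF : Fact p.Prime] [NeZero p]
    (k : Type) [Field k] [CharP k 2] [IsAlgClosed k]
    (hg : p % 24 = 23 → 12 * Fermat.Agent.CurveP.genusR k (EhField k p) ≤ p + 1) :
    Nat.card (↥(heckeLatticeAlgebra p ∅) ⧸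
        Ideal.map ((latticeRestrictHom p ∅).toRingHom.comp (heckeEvalForms p 2))
          (eisensteinIdeal p)) =
      eisensteinNumerator p := by
  refine natCard_quotient_eq_of_eisCong p _ (eisensteinNumerator_pos p)
    (exists_eisCong_eisensteinNumerator p) ?_
  rintro M - ⟨f, hf⟩
  exact eisCong_dvd_eisensteinNumerator p
    (fun h24 f => eh_not_eisCong_two_of_genus_le k p h24 (hg h24) f) hf

end Fermat.Agent.Eis
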