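import Mathlib
import Fermat.Prelude.Def_CuspForm_HeckeLocal
import Fermat.Agent.Lib.Helper8.HeckeQCoeff
import Fermat.Agent.Lib.S23.HeckeTn

/-!
# P11 (S16), package A: the `a₁`-duality between the integral Hecke algebra and the lattice

`L = intLattice N 2` (cusp forms with integral `q`-expansion), `𝕋 = heckeLatticeAlgebra N ∅`.

* `latCoeff n f : ℤ`: the `n`-th `q`-coefficient of a lattice element, as an integer;
* `exists_latHecke n`: `t_n ∈ 𝕋` with `a₁(t_n f) = a_n(f)`;
* `latPair_left_injective`, `latPair_right_injective`: the pairing `(t, f) ↦ a₁(t f)` is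
  non-degenerate on both sides;
* `exists_lattice_of_functional`: **perfectness**: every `ℤ`-linear `ψ : 𝕋 → ℤ` is
  `t ↦ a₁(t f)` for some `f ∈ L`.
-/

set_option autoImplicit false

namespace Fermat.Agent.Eis

open CuspForm ModularFormClass Fermat.Agent.Lib.Helper8

variable (N : ℕ) [NeZero N]

local notation "Γ₀(" N ")" => CongruenceSubgroup.Gamma0 N
set_option quotPrecheck false in
local notation "𝕃" => ↥(CuspForm.intLattice N 2)
set_option quotPrecheck false in
local notation "𝕋" => ↥(CuspForm.heckeLatticeAlgebra N (∅ : Set ℕ))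

/-! ### Integral coefficients -/

/-- the `n`-th `q`-coefficient of a lattice element, as an integer -/
noncomputable def latCoeff (n : ℕ) (f : 𝕃) : ℤ :=
  Classical.choose ((h8_mem_intLattice_iff f.1).mp f.2 n)

theorem latCoeff_spec (n : ℕ) (f : 𝕃) : (latCoeff N n f : ℂ) = qCoeff ⇑f.1 n :=
  (Classical.choose_spec ((h8_mem_intLattice_iff f.1).mp f.2 n)).symm

theorem latCoeff_eq_iff (n : ℕ) (f : 𝕃) (m : ℤ) :
    latCoeff N n f = m ↔ qCoeff ⇑f.1 n = (m : ℂ) := by
  rw [← latCoeff_spec]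
  exact ⟨fun h => by rw [h], fun h => by exact_mod_cast h⟩

theorem latCoeff_add (n : ℕ) (f g : 𝕃) :
    latCoeff N n (f + g) = latCoeff N n f + latCoeff N n g := by
  rw [latCoeff_eq_iff]
  push_cast
  rw [latCoeff_spec, latCoeff_spec]
  exact h8_qCoeff_add f.1 g.1 n

theorem latCoeff_zsmul (n : ℕ) (c : ℤ) (f : 𝕃) :
    latCoeff N n (c • f) = c * latCoeff N n f := by
  rw [latCoeff_eq_iff]
  push_cast
  rw [latCoeff_spec]
  exact h8_qCoeff_zsmul c f.1 n

/-- `latCoeff n` as a linear form -/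
noncomputable def latCoeffLin (n : ℕ) : 𝕃 →ₗ[ℤ] ℤ where
  toFun := latCoeff N n
  map_add' := latCoeff_add N n
  map_smul' c f := by simpa using latCoeff_zsmul N n c f

@[simp] theorem latCoeffLin_apply (n : ℕ) (f : 𝕃) : latCoeffLin N n f = latCoeff N n f := rfl

theorem latCoeff_zero_index (f : 𝕃) : latCoeff N 0 f = 0 := by
  rw [latCoeff_eq_iff]
  simpa using h8_qCoeff_zero_eq f.1

/-- a lattice element is determined by its coefficients -/
theorem lat_eq_zero_of_latCoeff (f : 𝕃) (h : ∀ n, 1 ≤ n → latCoeff N n f = 0) : f = 0 := by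
  apply Subtype.ext
  refine h8_eq_zero_of_qCoeff f.1 fun n => ?_
  rcases Nat.eq_zero_or_pos n with rfl | hn
  · exact h8_qCoeff_zero_eq f.1
  · rw [← latCoeff_spec, h n hn]; simp

/-- saturation: if all coefficients of `g` are divisible by `M ≠ 0` then `g = M • f` -/
theorem exists_eq_zsmul_of_dvd_latCoeff (M : ℤ) (hM : M ≠ 0) (g : 𝕃)
    (h : ∀ n, M ∣ latCoeff N n g) : ∃ f : 𝕃, g = M • f := by
  have hM' : (M : ℂ) ≠ 0 := by exact_mod_cast hM
  have hmem : ((M : ℂ)⁻¹ • g.1) ∈ CuspForm.intLattice N 2 := by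
    rw [h8_mem_intLattice_iff]
    intro n
    obtain ⟨c, hc⟩ := h n
    refine ⟨c, ?_⟩
    rw [h8_qCoeff_smul, ← latCoeff_spec, hc]
    push_cast
    field_simp
  refine ⟨⟨_, hmem⟩, Subtype.ext ?_⟩
  show g.1 = M • ((M : ℂ)⁻¹ • g.1)
  rw [← Int.cast_smul_eq_zsmul ℂ, smul_smul, mul_inv_cancel₀ hM', one_smul]

/-! ### The Hecke action on the lattice -/

/-- the action of `𝕋` on `L` is the restriction of the Hecke action on cusp forms -/
theorem coe_latticeRestrictHom_apply (T : ↥(CuspForm.heckeAlgebra N 2 (∅ : Set ℕ))) (f : 𝕃) :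
    (((CuspForm.latticeRestrictHom N ∅ T : 𝕋) : Module.End ℤ 𝕃) f : CuspForm Γ₀(N) 2) =
      (T : Module.End ℂ (CuspForm Γ₀(N) 2)) f.1 := rfl

/-- for `n ≥ 1` there is `t ∈ 𝕋` with `a₁(t f) = a_n(f)` -/
theorem exists_latHecke (n : ℕ) (hn : 1 ≤ n) :
    ∃ t : 𝕋, ∀ f : 𝕃, latCoeff N 1 ((t : Module.End ℤ 𝕃) f) = latCoeff N n f := by
  obtain ⟨T, hT, hT'⟩ := Fermat.Agent.S23Lib.exists_hecke_coeff (N := N) n hn
  refine ⟨CuspForm.latticeRestrictHom N ∅ ⟨T, hT⟩, fun f => ?_⟩
  rw [latCoeff_eq_iff, coe_latticeRestrictHom_apply, latCoeff_spec]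
  exact hT' f.1

/-- the pairing `(t, f) ↦ a₁(t f)` -/
noncomputable def latPair : 𝕋 →ₗ[ℤ] 𝕃 →ₗ[ℤ] ℤ where
  toFun t := (latCoeffLin N 1).comp ((t : Module.End ℤ 𝕃))
  map_add' s t := by
    ext f
    simp [LinearMap.add_apply, latCoeff_add]
  map_smul' c t := by
    ext f
    simp [LinearMap.smul_apply, latCoeff_zsmul]

theorem latPair_apply (t : 𝕋) (f : 𝕃) :
    latPair N t f = latCoeff N 1 ((t : Module.End ℤ 𝕃) f) := rfl

/-- left non-degeneracy -/
theorem latPair_right_injective (f : 𝕃) (h : ∀ t : 𝕋, latPair N t f = 0) : f = 0 := by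
  refine lat_eq_zero_of_latCoeff N f fun n hn => ?_
  obtain ⟨t, ht⟩ := exists_latHecke N n hn
  rw [← ht f]
  exact h t

/-- right non-degeneracy -/
theorem latPair_left_injective (t : 𝕋) (h : ∀ f : 𝕃, latPair N t f = 0) : t = 0 := by
  apply Subtype.ext
  refine LinearMap.ext fun f => ?_
  refine lat_eq_zero_of_latCoeff N _ fun n hn => ?_
  obtain ⟨s, hs⟩ := exists_latHecke N n hn
  rw [← hs]
  have hcomm : ((s : Module.End ℤ 𝕃)) (((t : Module.End ℤ 𝕃)) f) =
      ((t : Module.End ℤ 𝕃)) (((s : Module.End ℤ 𝕃)) f) := by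
    have h1 : s * t = t * s := mul_comm s t
    have h2 := congrArg (fun u : 𝕋 => ((u : Module.End ℤ 𝕃)) f) h1
    simpa using h2
  rw [hcomm]
  exact h _

/-! ### Perfectness -/

theorem finrank_hecke_eq_finrank_lattice : Module.finrank ℤ 𝕋 = Module.finrank ℤ 𝕃 := by
  haveI := CuspForm.intLattice.moduleFinite N
  haveI := CuspForm.intLattice.moduleFree N
  apply le_antisymm
  · have h1 : Function.Injective (latPair N) := by
      rw [injective_iff_map_eq_zero]
      intro t ht
      exact latPair_left_injective N t fun f => by rw [ht]; rfl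
    have h2 := LinearMap.finrank_le_finrank_of_injective h1
    rwa [Module.finrank_linearMap_self] at h2
  · have h1 : Function.Injective (latPair N).flip := by
      rw [injective_iff_map_eq_zero]
      intro f hf
      exact latPair_right_injective N f fun t => by
        have := LinearMap.congr_fun hf t
        simpa using this
    have h2 := LinearMap.finrank_le_finrank_of_injective h1
    rwa [Module.finrank_linearMap_self] at h2

/-- **Perfectness of the `a₁`-pairing**: every linear form on `𝕋` comes from a lattice element. -/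
theorem exists_lattice_of_functional (ψ : 𝕋 →ₗ[ℤ] ℤ) :
    ∃ f : 𝕃, ∀ t : 𝕋, latPair N t f = ψ t := by
  haveI := CuspForm.intLattice.moduleFinite N
  haveI := CuspForm.intLattice.moduleFree N
  set Φ : 𝕃 →ₗ[ℤ] (𝕋 →ₗ[ℤ] ℤ) := (latPair N).flip with hΦ
  have hinj : Function.Injective Φ := by
    rw [injective_iff_map_eq_zero]
    intro f hf
    exact latPair_right_injective N f fun t => by
      have := LinearMap.congr_fun hf t
      simpa [hΦ] using this
  -- the range has full rank, so the quotient is torsion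
  have hr : Module.finrank ℤ (LinearMap.range Φ) = Module.finrank ℤ (𝕋 →ₗ[ℤ] ℤ) := by
    rw [LinearMap.finrank_range_of_inj hinj, Module.finrank_linearMap_self,
      finrank_hecke_eq_finrank_lattice]
  have hq : Module.finrank ℤ ((𝕋 →ₗ[ℤ] ℤ) ⧸ LinearMap.range Φ) = 0 := by
    have := (LinearMap.range Φ).finrank_quotient_add_finrank
    omega
  have htors := (Module.finrank_eq_zero_iff_isTorsion (R := ℤ)).mp hq
  obtain ⟨a, ha⟩ := @htors ((LinearMap.range Φ).mkQ ψ)
  have ha0 : (a : ℤ) ≠ 0 := nonZeroDivisors.coe_ne_zero a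
  have hmem : (a : ℤ) • ψ ∈ LinearMap.range Φ := by
    rw [← Submodule.Quotient.mk_eq_zero, Submodule.Quotient.mk_smul]
    exact ha
  obtain ⟨g, hg⟩ := hmem
  -- all coefficients of `g` are divisible by `a`
  have hdiv : ∀ n, (a : ℤ) ∣ latCoeff N n g := by
    intro n
    rcases Nat.eq_zero_or_pos n with rfl | hn
    · rw [latCoeff_zero_index]; exact dvd_zero _
    · obtain ⟨t, ht⟩ := exists_latHecke N n hn
      rw [← ht g]
      have h1 : latPair N t g = ((a : ℤ) • ψ) t := by
        rw [← hg]; rfl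
      rw [← latPair_apply, h1]
      exact ⟨ψ t, by simp⟩
  obtain ⟨f, hf⟩ := exists_eq_zsmul_of_dvd_latCoeff N a ha0 g hdiv
  refine ⟨f, fun t => ?_⟩
  have h1 : latPair N t g = ((a : ℤ) • ψ) t := by
    rw [← hg]; rfl
  rw [hf, map_smul, LinearMap.smul_apply, smul_eq_mul, smul_eq_mul] at h1
  exact mul_left_cancel₀ ha0 h1

end Fermat.Agent.Eis
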