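import Mathlib
import Fermat.Agent.Lib.Eis.Defs

/-!
# P11 (S16), package A: arithmetic of `σ'(n) = eisCoeff p n`

The Hecke recursions of the Eisenstein coefficients:
`σ'(n p) = σ'(n)` and, for a prime `ℓ ≠ p`,
`σ'(n ℓ) + [ℓ ∣ n] ℓ σ'(n / ℓ) = (1 + ℓ) σ'(n)`.
-/

set_option autoImplicit false

namespace Fermat.Agent.Eis

/-- the summand of `σ'` -/
def eisTerm (p d : ℕ) : ℤ := if p ∣ d then 0 else (d : ℤ)

theorem eisCoeff_eq_sum (p n : ℕ) : eisCoeff p n = ∑ d ∈ n.divisors, eisTerm p d := by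
  rw [eisCoeff, Finset.sum_filter]
  refine Finset.sum_congr rfl fun d _ => ?_
  by_cases h : p ∣ d <;> simp [eisTerm, h]

theorem eisTerm_mul_prime {p ℓ : ℕ} (hp : p.Prime) (hℓ : ℓ.Prime) (hne : ℓ ≠ p) (d : ℕ) :
    eisTerm p (ℓ * d) = ℓ * eisTerm p d := by
  have h : p ∣ ℓ * d ↔ p ∣ d := by
    constructor
    · intro h
      rcases (Nat.Prime.dvd_mul hp).mp h with h1 | h1
      · exact absurd ((Nat.prime_dvd_prime_iff_eq hp hℓ).mp h1).symm hne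
      · exact h1
    · exact fun h => Dvd.dvd.mul_left h ℓ
  unfold eisTerm
  by_cases h1 : p ∣ d
  · rw [if_pos h1, if_pos (h.mpr h1), mul_zero]
  · rw [if_neg h1, if_neg (fun h2 => h1 (h.mp h2))]
    push_cast
    ring

/-- `σ'(n p) = σ'(n)` -/
theorem eisCoeff_mul_self {p : ℕ} (hp : p.Prime) (n : ℕ) : eisCoeff p (n * p) = eisCoeff p n := by
  rcases Nat.eq_zero_or_pos n with rfl | hn
  · simp
  unfold eisCoeff
  congr 1
  ext d
  simp only [Finset.mem_filter, Nat.mem_divisors]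
  constructor
  · rintro ⟨⟨h1, _⟩, h2⟩
    refine ⟨⟨?_, hn.ne'⟩, h2⟩
    have hcop : Nat.Coprime d p := ((Nat.Prime.coprime_iff_not_dvd hp).mpr h2).symm
    exact hcop.dvd_of_dvd_mul_right h1
  · rintro ⟨⟨h1, h3⟩, h2⟩
    exact ⟨⟨Dvd.dvd.mul_right h1 p, Nat.mul_ne_zero h3 hp.ne_zero⟩, h2⟩

/-- `σ'(n ℓ) + [ℓ ∣ n] ℓ σ'(n / ℓ) = (1 + ℓ) σ'(n)` for a prime `ℓ ≠ p` -/
theorem eisCoeff_mul_prime {p ℓ : ℕ} (hp : p.Prime) (hℓ : ℓ.Prime) (hne : ℓ ≠ p) (n : ℕ) :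
    eisCoeff p (n * ℓ) + (if ℓ ∣ n then (ℓ : ℤ) * eisCoeff p (n / ℓ) else 0) =
      (1 + (ℓ : ℤ)) * eisCoeff p n := by
  rcases Nat.eq_zero_or_pos n with rfl | hn
  · simp
  simp only [eisCoeff_eq_sum]
  -- `divisors (n ℓ) = divisors n ∪ ℓ • divisors n`
  have hinj : Function.Injective (fun d : ℕ => ℓ * d) := fun a b h =>
    Nat.eq_of_mul_eq_mul_left hℓ.pos h
  have hU : (n * ℓ).divisors = n.divisors ∪ n.divisors.image (fun d => ℓ * d) := by
    ext d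
    simp only [Nat.mem_divisors, Finset.mem_union, Finset.mem_image]
    constructor
    · rintro ⟨h1, _⟩
      by_cases h2 : d ∣ n
      · exact Or.inl ⟨h2, hn.ne'⟩
      · right
        -- `ℓ ∣ d` and `d / ℓ ∣ n`
        have h3 : ℓ ∣ d := by
          by_contra h3
          have hcop : Nat.Coprime d ℓ := ((Nat.Prime.coprime_iff_not_dvd hℓ).mpr h3).symm
          exact h2 (hcop.dvd_of_dvd_mul_right h1)
        obtain ⟨e, rfl⟩ := h3
        refine ⟨e, ⟨?_, hn.ne'⟩, rfl⟩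
        rw [mul_comm n ℓ] at h1
        exact Nat.dvd_of_mul_dvd_mul_left hℓ.pos h1
    · rintro (⟨h1, _⟩ | ⟨e, ⟨h1, _⟩, rfl⟩)
      · exact ⟨Dvd.dvd.mul_right h1 ℓ, Nat.mul_ne_zero hn.ne' hℓ.ne_zero⟩
      · exact ⟨by rw [mul_comm n ℓ]; exact Nat.mul_dvd_mul_left ℓ h1,
          Nat.mul_ne_zero hn.ne' hℓ.ne_zero⟩
  have hI : n.divisors ∩ n.divisors.image (fun d => ℓ * d) =
      if ℓ ∣ n then (n / ℓ).divisors.image (fun d => ℓ * d) else ∅ := by
    split_ifs with hd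
    · ext d
      simp only [Finset.mem_inter, Nat.mem_divisors, Finset.mem_image]
      constructor
      · rintro ⟨⟨h1, _⟩, e, ⟨_, _⟩, rfl⟩
        refine ⟨e, ⟨?_, ?_⟩, rfl⟩
        · obtain ⟨m, rfl⟩ := hd
          rw [Nat.mul_div_cancel_left _ hℓ.pos]
          exact Nat.dvd_of_mul_dvd_mul_left hℓ.pos h1
        · exact (Nat.div_pos (Nat.le_of_dvd hn hd) hℓ.pos).ne'
      · rintro ⟨e, ⟨h1, _⟩, rfl⟩
        obtain ⟨m, rfl⟩ := hd
        rw [Nat.mul_div_cancel_left _ hℓ.pos] at h1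
        exact ⟨⟨Nat.mul_dvd_mul_left ℓ h1, hn.ne'⟩, e,
          ⟨Dvd.dvd.mul_left h1 ℓ, hn.ne'⟩, rfl⟩
    · ext d
      simp only [Finset.mem_inter, Nat.mem_divisors, Finset.mem_image, Finset.notMem_empty,
        iff_false, not_and]
      rintro ⟨h1, _⟩ ⟨e, _, rfl⟩
      exact hd (dvd_trans (Dvd.intro e rfl) h1)
  have hsum := Finset.sum_union_inter (s₁ := n.divisors)
    (s₂ := n.divisors.image (fun d => ℓ * d)) (f := eisTerm p)
  rw [← hU, hI, Finset.sum_image (fun a _ b _ h => hinj h)] at hsum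
  simp only [eisTerm_mul_prime hp hℓ hne, ← Finset.mul_sum] at hsum
  split_ifs at hsum ⊢ with hd
  · rw [Finset.sum_image (fun a _ b _ h => hinj h)] at hsum
    simp only [eisTerm_mul_prime hp hℓ hne, ← Finset.mul_sum] at hsum
    rw [hsum]; ring
  · rw [Finset.sum_empty] at hsum
    rw [hsum]; ring

end Fermat.Agent.Eis
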