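import Mathlib
import Fermat.Prelude.Def_CuspForm_HeckeLocal
import Fermat.Prelude.Def_CuspForm_HeckeEvalForms
import Fermat.Prelude.Def_HeckeGalois_EichlerShimura
import Fermat.Agent.Lib.Eis.Duality
import Fermat.Agent.Lib.Eis.SigmaPrime

/-!
# P11 (S16), package A: the Eisenstein quotient of the integral Hecke algebra is cyclic

`φ = eisPhi p : HeckeAlg → 𝕋 = heckeLatticeAlgebra p ∅`, `J = eisJ p = φ(eisensteinIdeal p) 𝕋`.

* `eisPhi_surjective`;
* `eisPhi_sub_mem`: `φ(P) - (P evaluated at the Eisenstein system) ∈ J`;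
* `exists_eisPoly`: `P_n` with `a₁(φ(P_n) g) = a_n(g)` and Eisenstein value `σ'(n)`;
* `dvd_of_eisCong`: a congruence `f ≡ E' mod M` forces `M ∣ a` for every integer `a ∈ J`;
* `exists_eisCong_of_forall_dvd`: conversely (perfectness of the `a₁`-pairing).
-/

set_option autoImplicit false

namespace Fermat.Agent.Eis

open CuspForm ModularCurve ModularFormClass Fermat.Agent.Lib.Helper8

variable (p : ℕ) [hpF : Fact p.Prime]

local notation "Γ₀(" N ")" => CongruenceSubgroup.Gamma0 N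
set_option quotPrecheck false in
local notation "𝕃" => ↥(CuspForm.intLattice p 2)
set_option quotPrecheck false in
local notation "𝕋" => ↥(CuspForm.heckeLatticeAlgebra p (∅ : Set ℕ))

/-- the ring homomorphism of the statement S16 -/
noncomputable def eisPhi : HeckeAlg →+* 𝕋 :=
  (CuspForm.latticeRestrictHom p ∅).toRingHom.comp (CuspForm.heckeEvalForms p 2)

/-- the image of the Eisenstein ideal -/
noncomputable def eisJ : Ideal 𝕋 := Ideal.map (eisPhi p) (eisensteinIdeal p)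

theorem eisPhi_apply_apply (P : HeckeAlg) (f : 𝕃) :
    (((eisPhi p P : 𝕋) : Module.End ℤ 𝕃) f : CuspForm Γ₀(p) 2) =
      ((CuspForm.heckeEvalForms p 2 P : ↥(CuspForm.heckeAlgebra p 2 (∅ : Set ℕ))) :
        Module.End ℂ (CuspForm Γ₀(p) 2)) f.1 := rfl

/-! ### Surjectivity -/

theorem heckeEvalForms_surjective :
    Function.Surjective (CuspForm.heckeEvalForms p 2) := by
  rintro ⟨t, ht⟩
  have key : ∀ t (ht : t ∈ CuspForm.heckeAlgebra p 2 (∅ : Set ℕ)),
      ∃ P : HeckeAlg, CuspForm.heckeEvalForms p 2 P = ⟨t, ht⟩ := by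
    intro t ht
    induction ht using Algebra.adjoin_induction with
    | mem x hx =>
      rcases hx with ⟨ℓ, hℓ, hℓN, -, rfl⟩ | ⟨q, hqN, hq, -, rfl⟩
      · refine ⟨heckeGen ⟨ℓ, hℓ⟩, ?_⟩
        rw [CuspForm.heckeEvalForms_heckeGen_of_not_dvd (ℓ := ⟨ℓ, hℓ⟩) hℓN]
        rfl
      · refine ⟨heckeGen ⟨q, hq⟩, ?_⟩
        rw [CuspForm.heckeEvalForms_heckeGen_of_dvd (q := ⟨q, hq⟩) hqN]
        rfl
    | algebraMap a =>
      exact ⟨MvPolynomial.C a, by rw [CuspForm.heckeEvalForms_C]; rfl⟩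
    | add x y hx hy ihx ihy =>
      obtain ⟨P, hP⟩ := ihx
      obtain ⟨Q, hQ⟩ := ihy
      exact ⟨P + Q, by rw [map_add, hP, hQ]; rfl⟩
    | mul x y hx hy ihx ihy =>
      obtain ⟨P, hP⟩ := ihx
      obtain ⟨Q, hQ⟩ := ihy
      exact ⟨P * Q, by rw [map_mul, hP, hQ]; rfl⟩
  exact key t ht

theorem eisPhi_surjective : Function.Surjective (eisPhi p) := by
  intro t
  obtain ⟨s, hs⟩ := CuspForm.latticeRestrictHom_surjective p ∅ t
  obtain ⟨P, hP⟩ := heckeEvalForms_surjective p s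
  exact ⟨P, by rw [eisPhi, RingHom.comp_apply, hP]; exact hs⟩

/-! ### Reduction modulo `J` -/

theorem eisPhi_C (a : ℤ) : eisPhi p (MvPolynomial.C a) = algebraMap ℤ 𝕋 a := by
  rw [eisPhi, RingHom.comp_apply, CuspForm.heckeEvalForms_C]
  exact (CuspForm.latticeRestrictHom p ∅).commutes a

/-- `φ(P) ≡ P(Eisenstein system)` modulo `J` -/
theorem eisPhi_sub_mem (P : HeckeAlg) :
    eisPhi p P - algebraMap ℤ 𝕋 (MvPolynomial.aeval (eisensteinSystem p) P) ∈ eisJ p := by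
  rw [← eisPhi_C, ← map_sub]
  refine Ideal.mem_map_of_mem _ ?_
  rw [eisensteinIdeal, mem_eigenIdeal_iff, map_sub, MvPolynomial.aeval_C]
  exact sub_self _

/-- every element of `𝕋` is an integer modulo `J` -/
theorem exists_int_sub_mem (t : 𝕋) : ∃ a : ℤ, t - algebraMap ℤ 𝕋 a ∈ eisJ p := by
  obtain ⟨P, rfl⟩ := eisPhi_surjective p t
  exact ⟨_, eisPhi_sub_mem p P⟩

/-! ### The polynomials `P_n` -/

theorem heckeEvalForms_heckeGen_self_apply (g : CuspForm Γ₀(p) 2) (n : ℕ) :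
    qCoeff ⇑(((CuspForm.heckeEvalForms p 2 (heckeGen ⟨p, hpF.out⟩) :
      ↥(CuspForm.heckeAlgebra p 2 (∅ : Set ℕ))) : Module.End ℂ (CuspForm Γ₀(p) 2)) g) n =
      qCoeff ⇑g (n * p) := by
  rw [CuspForm.heckeEvalForms_heckeGen_of_dvd (q := ⟨p, hpF.out⟩) (dvd_refl p)]
  exact h8_qCoeff_heckeULin hpF.out (dvd_refl p) g n

theorem heckeEvalForms_heckeGen_apply {ℓ : ℕ} (hℓ : ℓ.Prime) (hne : ℓ ≠ p)
    (g : CuspForm Γ₀(p) 2) (n : ℕ) :
    qCoeff ⇑(((CuspForm.heckeEvalForms p 2 (heckeGen ⟨ℓ, hℓ⟩) :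
      ↥(CuspForm.heckeAlgebra p 2 (∅ : Set ℕ))) : Module.End ℂ (CuspForm Γ₀(p) 2)) g) n =
      qCoeff ⇑g (n * ℓ) + if ℓ ∣ n then (ℓ : ℂ) * qCoeff ⇑g (n / ℓ) else 0 := by
  have hℓp : ¬ ℓ ∣ p := fun h => hne ((Nat.prime_dvd_prime_iff_eq hℓ hpF.out).mp h)
  rw [CuspForm.heckeEvalForms_heckeGen_of_not_dvd (ℓ := ⟨ℓ, hℓ⟩) hℓp]
  have := h8_qCoeff_heckeTLin hℓ hℓp g n
  simpa using this

theorem eisensteinSystem_self : eisensteinSystem p ⟨p, hpF.out⟩ = 1 :=
  eisensteinSystem_of_dvd (dvd_refl p)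

theorem eisensteinSystem_of_ne {ℓ : ℕ} (hℓ : ℓ.Prime) (hne : ℓ ≠ p) :
    eisensteinSystem p ⟨ℓ, hℓ⟩ = 1 + (ℓ : ℤ) := by
  have hℓp : ¬ ℓ ∣ p := fun h => hne ((Nat.prime_dvd_prime_iff_eq hℓ hpF.out).mp h)
  rw [eisensteinSystem_of_not_dvd (ℓ := ⟨ℓ, hℓ⟩) hℓp]

/-- the Hecke operator `T_n` as a polynomial, with its Eisenstein value `σ'(n)` -/
theorem exists_eisPoly (n : ℕ) (hn : 1 ≤ n) :
    ∃ P : HeckeAlg,
      (∀ g : CuspForm Γ₀(p) 2,
        qCoeff ⇑(((CuspForm.heckeEvalForms p 2 P : ↥(CuspForm.heckeAlgebra p 2 (∅ : Set ℕ))) :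
          Module.End ℂ (CuspForm Γ₀(p) 2)) g) 1 = qCoeff ⇑g n) ∧
      MvPolynomial.aeval (eisensteinSystem p) P = eisCoeff p n := by
  induction n using Nat.strong_induction_on with
  | _ n ih =>
    rcases Nat.eq_or_lt_of_le hn with h1 | h1
    · subst h1
      refine ⟨1, fun g => by rw [map_one]; rfl, ?_⟩
      rw [map_one, eisCoeff_one hpF.out.two_le]
    · have hℓ : (n.minFac).Prime := Nat.minFac_prime (by omega)
      set ℓ := n.minFac with hℓdef
      obtain ⟨m, hm⟩ : ∃ m, n = m * ℓ := ⟨n / ℓ, (Nat.div_mul_cancel (Nat.minFac_dvd n)).symm⟩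
      have hm1 : 1 ≤ m := by
        rcases Nat.eq_zero_or_pos m with h0 | h0
        · subst h0; omega
        · exact h0
      have hmn : m < n := by
        rw [hm]
        have := hℓ.two_le
        nlinarith
      obtain ⟨Pm, hPm, hPm'⟩ := ih m hmn hm1
      by_cases hℓp : ℓ = p
      · refine ⟨Pm * heckeGen ⟨p, hpF.out⟩, fun g => ?_, ?_⟩
        · rw [map_mul, MulMemClass.coe_mul, Module.End.mul_apply, hPm,
            heckeEvalForms_heckeGen_self_apply, hm, hℓp]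
        · rw [map_mul, hPm', aeval_heckeGen, eisensteinSystem_self, mul_one, hm, hℓp,
            eisCoeff_mul_self hpF.out]
      · have hrec := eisCoeff_mul_prime hpF.out hℓ hℓp m
        by_cases hℓm : ℓ ∣ m
        · have hmp1 : 1 ≤ m / ℓ := Nat.div_pos (Nat.le_of_dvd hm1 hℓm) hℓ.pos
          have hmpn : m / ℓ < n := lt_of_le_of_lt (Nat.div_le_self m ℓ) hmn
          obtain ⟨Pq, hPq, hPq'⟩ := ih (m / ℓ) hmpn hmp1
          refine ⟨Pm * heckeGen ⟨ℓ, hℓ⟩ - MvPolynomial.C (ℓ : ℤ) * Pq, fun g => ?_, ?_⟩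
          · rw [map_sub, map_mul, map_mul, CuspForm.heckeEvalForms_C,
              AddSubgroupClass.coe_sub, MulMemClass.coe_mul, MulMemClass.coe_mul,
              LinearMap.sub_apply, h8_qCoeff_sub, Module.End.mul_apply, hPm,
              heckeEvalForms_heckeGen_apply p hℓ hℓp, if_pos hℓm, Module.End.mul_apply]
            have h2 : ((algebraMap ℤ ↥(CuspForm.heckeAlgebra p 2 (∅ : Set ℕ)) (ℓ : ℤ) :
                ↥(CuspForm.heckeAlgebra p 2 (∅ : Set ℕ))) : Module.End ℂ (CuspForm Γ₀(p) 2)) =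
                (ℓ : ℤ) • (1 : Module.End ℂ (CuspForm Γ₀(p) 2)) := by
              rw [Algebra.algebraMap_eq_smul_one]
              rfl
            rw [h2, LinearMap.smul_apply, Module.End.one_apply, h8_qCoeff_zsmul, hPq, hm]
            push_cast
            ring
          · rw [if_pos hℓm] at hrec
            rw [map_sub, map_mul, map_mul, hPm', hPq', aeval_heckeGen,
              eisensteinSystem_of_ne p hℓ hℓp, MvPolynomial.aeval_C, hm]
            simp only [algebraMap_int_eq, eq_intCast, Int.cast_natCast]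
            linarith
        · refine ⟨Pm * heckeGen ⟨ℓ, hℓ⟩, fun g => ?_, ?_⟩
          · rw [map_mul, MulMemClass.coe_mul, Module.End.mul_apply, hPm,
              heckeEvalForms_heckeGen_apply p hℓ hℓp, if_neg hℓm, hm, add_zero]
          · rw [if_neg hℓm, add_zero] at hrec
            rw [map_mul, hPm', aeval_heckeGen, eisensteinSystem_of_ne p hℓ hℓp, hm, hrec]
            ring

end Fermat.Agent.Eis
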