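import Mathlib
import Fermat.Agent.Lib.Eis.Cyclic

/-!
# P11 (S16), package A: Eisenstein congruences and the Eisenstein quotient

* `dvd_of_eisCong`: a cusp form `f ≡ E' mod M` in the lattice forces `M ∣ a` for every integer
  `a` whose image in `𝕋` lies in `J`;
* `exists_eisCong_of_forall_dvd`: conversely, if `M ∣ a` for all such `a`, there is a lattice cusp
  form `≡ E' mod M` (perfectness of the `a₁`-pairing);
* `natCard_quotient_eq_of_eisCong`: hence `#(𝕋/J) = n` as soon as `n` is the largest modulus of an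
  Eisenstein congruence.
-/

set_option autoImplicit false

namespace Fermat.Agent.Eis

open CuspForm ModularCurve ModularFormClass Fermat.Agent.Lib.Helper8

variable (p : ℕ) [hpF : Fact p.Prime]

local notation "Γ₀(" N ")" => CongruenceSubgroup.Gamma0 N
set_option quotPrecheck false in
local notation "𝕃" => ↥(CuspForm.intLattice p 2)
set_option quotPrecheck false in
local notation "𝕋" => ↥(CuspForm.heckeLatticeAlgebra p (∅ : Set ℕ))

/-! ### Coefficients of the Hecke generators on the lattice -/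

theorem latCoeff_eisPhi_self (f : 𝕃) (n : ℕ) :
    latCoeff p n (((eisPhi p (heckeGen ⟨p, hpF.out⟩) : 𝕋) : Module.End ℤ 𝕃) f) =
      latCoeff p (n * p) f := by
  rw [latCoeff_eq_iff, eisPhi_apply_apply, heckeEvalForms_heckeGen_self_apply, latCoeff_spec]

theorem latCoeff_eisPhi_of_ne {ℓ : ℕ} (hℓ : ℓ.Prime) (hne : ℓ ≠ p) (f : 𝕃) (n : ℕ) :
    latCoeff p n (((eisPhi p (heckeGen ⟨ℓ, hℓ⟩) : 𝕋) : Module.End ℤ 𝕃) f) =
      latCoeff p (n * ℓ) f + if ℓ ∣ n then (ℓ : ℤ) * latCoeff p (n / ℓ) f else 0 := by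
  rw [latCoeff_eq_iff, eisPhi_apply_apply, heckeEvalForms_heckeGen_apply p hℓ hne]
  push_cast
  rw [latCoeff_spec]
  split_ifs
  · push_cast
    rw [latCoeff_spec]
  · simp

/-- a lattice element from an Eisenstein congruence -/
theorem EisCong.mem_intLattice {M : ℕ} {f : CuspForm Γ₀(p) 2} (h : EisCong p M f) :
    f ∈ CuspForm.intLattice p 2 := by
  rw [h8_mem_intLattice_iff]
  intro n
  obtain ⟨m, hm, -⟩ := h n
  exact ⟨m, hm⟩

theorem EisCong.dvd_latCoeff_sub {M : ℕ} {f : CuspForm Γ₀(p) 2} (h : EisCong p M f) (n : ℕ) :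
    (M : ℤ) ∣ latCoeff p n ⟨f, h.mem_intLattice p⟩ - eisCoeff p n := by
  obtain ⟨m, hm, hd⟩ := h n
  have : latCoeff p n ⟨f, h.mem_intLattice p⟩ = m := by
    rw [latCoeff_eq_iff]; exact hm
  rw [this]; exact hd

/-! ### From a congruence to divisibility -/

section Forward

variable {M : ℕ} (hM : 0 < M) {f : CuspForm Γ₀(p) 2} (h : EisCong p M f)

include hM h

/-- the generators act on `f` by their Eisenstein eigenvalues modulo `M 𝕃` -/
theorem exists_eisPhi_heckeGen_eq (ℓ : Nat.Primes) :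
    ∃ g : 𝕃, ((eisPhi p (heckeGen ℓ) : 𝕋) : Module.End ℤ 𝕃) ⟨f, h.mem_intLattice p⟩ =
      eisensteinSystem p ℓ • (⟨f, h.mem_intLattice p⟩ : 𝕃) + (M : ℤ) • g := by
  set fL : 𝕃 := ⟨f, h.mem_intLattice p⟩ with hfL
  have hM' : (M : ℤ) ≠ 0 := by exact_mod_cast hM.ne'
  have hc : ∀ n, (M : ℤ) ∣ latCoeff p n fL - eisCoeff p n := h.dvd_latCoeff_sub p
  suffices hdiv : ∀ n, (M : ℤ) ∣ latCoeff p n
      (((eisPhi p (heckeGen ℓ) : 𝕋) : Module.End ℤ 𝕃) fL - eisensteinSystem p ℓ • fL) by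
    obtain ⟨g, hg⟩ := exists_eq_zsmul_of_dvd_latCoeff p (M : ℤ) hM' _ hdiv
    exact ⟨g, by rw [← hg]; abel⟩
  intro n
  have hsub : ∀ (x y : 𝕃), latCoeff p n (x - y) = latCoeff p n x - latCoeff p n y := by
    intro x y
    have := latCoeff_add p n (x - y) y
    rw [sub_add_cancel] at this
    linarith
  rw [hsub, latCoeff_zsmul]
  obtain ⟨ℓ, hℓ⟩ := ℓ
  by_cases hℓp : ℓ = p
  · subst hℓp
    rw [latCoeff_eisPhi_self, eisensteinSystem_self, one_mul]
    have h1 := hc (n * ℓ)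
    have h2 := hc n
    rw [eisCoeff_mul_self hℓ] at h1
    have := dvd_sub h1 h2
    simpa using this
  · rw [latCoeff_eisPhi_of_ne p hℓ hℓp, eisensteinSystem_of_ne p hℓ hℓp]
    have hrec := eisCoeff_mul_prime hpF.out hℓ hℓp n
    have h1 := hc (n * ℓ)
    have h2 := hc n
    by_cases hd : ℓ ∣ n
    · rw [if_pos hd] at hrec ⊢
      have h3 := hc (n / ℓ)
      have h4 := dvd_add h1 (Dvd.dvd.mul_left h3 (ℓ : ℤ))
      have h5 := dvd_sub h4 (Dvd.dvd.mul_left h2 (1 + (ℓ : ℤ)))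
      have e : latCoeff p (n * ℓ) fL - eisCoeff p (n * ℓ) +
          (ℓ : ℤ) * (latCoeff p (n / ℓ) fL - eisCoeff p (n / ℓ)) -
          (1 + (ℓ : ℤ)) * (latCoeff p n fL - eisCoeff p n) =
          latCoeff p (n * ℓ) fL + (ℓ : ℤ) * latCoeff p (n / ℓ) fL -
            (1 + (ℓ : ℤ)) * latCoeff p n fL := by
        linear_combination (-1 : ℤ) * hrec
      rwa [e] at h5
    · rw [if_neg hd, add_zero] at hrec ⊢
      have h5 := dvd_sub h1 (Dvd.dvd.mul_left h2 (1 + (ℓ : ℤ)))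
      have e : latCoeff p (n * ℓ) fL - eisCoeff p (n * ℓ) -
          (1 + (ℓ : ℤ)) * (latCoeff p n fL - eisCoeff p n) =
          latCoeff p (n * ℓ) fL - (1 + (ℓ : ℤ)) * latCoeff p n fL := by
        linear_combination (-1 : ℤ) * hrec
      rwa [e] at h5

/-- every `φ(P)` acts on `f` by its Eisenstein value modulo `M 𝕃` -/
theorem exists_eisPhi_eq (P : HeckeAlg) :
    ∃ g : 𝕃, ((eisPhi p P : 𝕋) : Module.End ℤ 𝕃) ⟨f, h.mem_intLattice p⟩ =
      (MvPolynomial.aeval (eisensteinSystem p) P : ℤ) • (⟨f, h.mem_intLattice p⟩ : 𝕃) +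
        (M : ℤ) • g := by
  set fL : 𝕃 := ⟨f, h.mem_intLattice p⟩ with hfL
  induction P using MvPolynomial.induction_on with
  | C a =>
    refine ⟨0, ?_⟩
    rw [eisPhi_C, MvPolynomial.aeval_C, smul_zero, add_zero]
    show ((algebraMap ℤ 𝕋 a : 𝕋) : Module.End ℤ 𝕃) fL = _
    rw [Algebra.algebraMap_eq_smul_one]
    rfl
  | add P Q hP hQ =>
    obtain ⟨g1, h1⟩ := hP
    obtain ⟨g2, h2⟩ := hQ
    refine ⟨g1 + g2, ?_⟩
    rw [map_add, map_add, Subalgebra.coe_add, LinearMap.add_apply, h1, h2, add_smul, smul_add]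
    abel
  | mul_X P ℓ hP =>
    obtain ⟨g1, h1⟩ := hP
    obtain ⟨g2, h2⟩ := exists_eisPhi_heckeGen_eq p hM h ℓ
    refine ⟨eisensteinSystem p ℓ • g1 + ((eisPhi p P : 𝕋) : Module.End ℤ 𝕃) g2, ?_⟩
    have hX : (MvPolynomial.X ℓ : HeckeAlg) = heckeGen ℓ := rfl
    rw [map_mul, map_mul, Subalgebra.coe_mul, Module.End.mul_apply, hX, h2, map_add,
      LinearMap.map_smul_of_tower, LinearMap.map_smul_of_tower, h1, aeval_heckeGen]
    simp only [smul_add, smul_smul, mul_comm]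
    rw [add_assoc]

/-- **forward direction**: an Eisenstein congruence modulo `M` forces `M ∣ a` for every integer
`a` in `J`. -/
theorem dvd_of_eisCong (a : ℤ) (ha : algebraMap ℤ 𝕋 a ∈ eisJ p) : (M : ℤ) ∣ a := by
  set fL : 𝕃 := ⟨f, h.mem_intLattice p⟩ with hfL
  obtain ⟨P, hP, hPa⟩ := (Ideal.mem_map_iff_of_surjective (eisPhi p) (eisPhi_surjective p)).mp ha
  obtain ⟨g, hg⟩ := exists_eisPhi_eq p hM h P
  rw [eisensteinIdeal, mem_eigenIdeal_iff] at hP
  rw [hP, zero_smul, zero_add, hPa] at hg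
  have h1 : ((algebraMap ℤ 𝕋 a : 𝕋) : Module.End ℤ 𝕃) fL = a • fL := by
    rw [Algebra.algebraMap_eq_smul_one]; rfl
  rw [h1] at hg
  have h2 := congrArg (latCoeff p 1) hg
  rw [latCoeff_zsmul, latCoeff_zsmul] at h2
  have h3 := h.dvd_latCoeff_sub p 1
  rw [eisCoeff_one hpF.out.two_le] at h3
  -- `a = a * c₁ - a * (c₁ - 1)`
  have h4 : a = a * latCoeff p 1 fL - a * (latCoeff p 1 fL - 1) := by ring
  rw [h4, h2]
  exact dvd_sub (Dvd.intro _ rfl) (Dvd.dvd.mul_left h3 a)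

end Forward

/-! ### From divisibility to a congruence -/

/-- **converse direction**: if `M` divides every integer in `J`, there is a lattice cusp form
congruent to the Eisenstein series modulo `M`. -/
theorem exists_eisCong_of_forall_dvd {M : ℕ}
    (hdiv : ∀ a : ℤ, algebraMap ℤ 𝕋 a ∈ eisJ p → (M : ℤ) ∣ a) :
    ∃ f : CuspForm Γ₀(p) 2, EisCong p M f := by
  -- the character `𝕋 → 𝕋/J → ℤ/M`
  have key : ∀ (t : 𝕋) (a b : ℤ), t - algebraMap ℤ 𝕋 a ∈ eisJ p → t - algebraMap ℤ 𝕋 b ∈ eisJ p →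
      (a : ZMod M) = (b : ZMod M) := by
    intro t a b ha hb
    rw [ZMod.intCast_eq_intCast_iff_dvd_sub]
    apply hdiv
    have := (eisJ p).sub_mem ha hb
    rw [map_sub]
    convert this using 1
    abel
  let χfun : 𝕋 → ZMod M := fun t => ((Classical.choose (exists_int_sub_mem p t) : ℤ) : ZMod M)
  have hχ : ∀ (t : 𝕋) (a : ℤ), t - algebraMap ℤ 𝕋 a ∈ eisJ p → χfun t = (a : ZMod M) :=
    fun t a ha => key t _ a (Classical.choose_spec (exists_int_sub_mem p t)) ha
  have hχadd : ∀ s t : 𝕋, χfun (s + t) = χfun s + χfun t := by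
    intro s t
    have hs := Classical.choose_spec (exists_int_sub_mem p s)
    have ht := Classical.choose_spec (exists_int_sub_mem p t)
    have h1 := hχ (s + t) (Classical.choose (exists_int_sub_mem p s) +
      Classical.choose (exists_int_sub_mem p t)) (by
        rw [map_add]
        convert (eisJ p).add_mem hs ht using 1
        abel)
    rw [h1]
    push_cast
    rfl
  let χ : 𝕋 →ₗ[ℤ] ZMod M := (AddMonoidHom.mk' χfun hχadd).toIntLinearMap
  have hχ' : ∀ (t : 𝕋) (a : ℤ), t - algebraMap ℤ 𝕋 a ∈ eisJ p → χ t = (a : ZMod M) := hχ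
  -- lift it to `ℤ`
  have := CuspForm.intLattice.moduleFinite p
  have := CuspForm.intLattice.moduleFree p
  obtain ⟨ψ, hψ⟩ := Module.projective_lifting_property
    ((Int.castAddHom (ZMod M)).toIntLinearMap) χ (ZMod.intCast_surjective)
  have hψ' : ∀ t : 𝕋, ((ψ t : ℤ) : ZMod M) = χ t := fun t => LinearMap.congr_fun hψ t
  obtain ⟨f, hf⟩ := exists_lattice_of_functional p ψ
  refine ⟨f.1, fun n => ⟨latCoeff p n f, (latCoeff_spec p n f).symm, ?_⟩⟩
  rcases Nat.eq_zero_or_pos n with rfl | hn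
  · rw [latCoeff_zero_index, eisCoeff_zero, sub_zero]
    exact dvd_zero _
  · obtain ⟨P, hP, hP'⟩ := exists_eisPoly p n hn
    have h1 : latPair p (eisPhi p P) f = latCoeff p n f := by
      rw [latPair_apply, latCoeff_eq_iff, eisPhi_apply_apply, hP, latCoeff_spec]
    have h2 := hχ' (eisPhi p P) _ (eisPhi_sub_mem p P)
    rw [hP', ← hψ', ← hf, h1, ZMod.intCast_eq_intCast_iff_dvd_sub] at h2
    have := (dvd_neg (α := ℤ)).mpr h2
    rwa [neg_sub] at this

/-! ### The order of the Eisenstein quotient -/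

/-- **(A)** the Eisenstein quotient `𝕋/J` has order `n` as soon as `n` is the largest modulus of an
Eisenstein congruence. -/
theorem natCard_quotient_eq_of_eisCong (n : ℕ) (hn : 0 < n)
    (hex : ∃ f, EisCong p n f)
    (hub : ∀ M : ℕ, 0 < M → (∃ f, EisCong p M f) → M ∣ n) :
    Nat.card (↥(CuspForm.heckeLatticeAlgebra p (∅ : Set ℕ)) ⧸
        Ideal.map ((CuspForm.latticeRestrictHom p ∅).toRingHom.comp (CuspForm.heckeEvalForms p 2))
          (eisensteinIdeal p)) = n := by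
  change Nat.card (𝕋 ⧸ eisJ p) = n
  set ι : ℤ →+* 𝕋 ⧸ eisJ p := (Ideal.Quotient.mk (eisJ p)).comp (algebraMap ℤ 𝕋) with hι
  have hιsurj : Function.Surjective ι := by
    intro x
    obtain ⟨t, rfl⟩ := Ideal.Quotient.mk_surjective x
    obtain ⟨a, ha⟩ := exists_int_sub_mem p t
    refine ⟨a, ?_⟩
    rw [hι, RingHom.comp_apply]
    exact ((Ideal.Quotient.eq).mpr ha).symm
  have hmem : ∀ a : ℤ, a ∈ RingHom.ker ι ↔ algebraMap ℤ 𝕋 a ∈ eisJ p := by
    intro a
    rw [RingHom.mem_ker, hι, RingHom.comp_apply, Ideal.Quotient.eq_zero_iff_mem]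
  set g : ℤ := Submodule.IsPrincipal.generator (RingHom.ker ι) with hg
  have hspan : RingHom.ker ι = Ideal.span {g} := (Ideal.span_singleton_generator _).symm
  have hcard : Nat.card (𝕋 ⧸ eisJ p) = g.natAbs := by
    have e1 : (ℤ ⧸ RingHom.ker ι) ≃+* (𝕋 ⧸ eisJ p) :=
      RingHom.quotientKerEquivOfSurjective hιsurj
    have e2 : (ℤ ⧸ RingHom.ker ι) ≃+* ZMod g.natAbs :=
      (Ideal.quotEquivOfEq hspan).trans (Int.quotientSpanEquivZMod g)
    rw [← Nat.card_congr e1.toEquiv, Nat.card_congr e2.toEquiv, Nat.card_zmod]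
  rw [hcard]
  have hgmem : algebraMap ℤ 𝕋 g ∈ eisJ p := by
    rw [← hmem, hspan]
    exact Ideal.mem_span_singleton_self g
  have hdvd_of_mem : ∀ a : ℤ, algebraMap ℤ 𝕋 a ∈ eisJ p → g ∣ a := by
    intro a ha
    rw [← hmem, hspan, Ideal.mem_span_singleton] at ha
    exact ha
  -- `n ∣ g`
  obtain ⟨f, hf⟩ := hex
  have h1 : n ∣ g.natAbs := Int.natCast_dvd.mp (dvd_of_eisCong p hn hf g hgmem)
  -- `g ∣ n`
  have h2 : g.natAbs ∣ n := by
    rcases Nat.eq_zero_or_pos g.natAbs with h0 | h0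
    · exfalso
      have hg0 : g = 0 := Int.natAbs_eq_zero.mp h0
      have : ∃ f, EisCong p (2 * n) f := by
        refine exists_eisCong_of_forall_dvd p fun a ha => ?_
        have := hdvd_of_mem a ha
        rw [hg0, zero_dvd_iff] at this
        rw [this]
        exact dvd_zero _
      have := Nat.le_of_dvd hn (hub (2 * n) (by omega) this)
      omega
    · refine hub _ h0 (exists_eisCong_of_forall_dvd p fun a ha => ?_)
      exact Int.natAbs_dvd.mpr (hdvd_of_mem a ha)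
  exact Nat.dvd_antisymm h2 h1

end Fermat.Agent.Eis
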